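/-
Cluster B / GenusEq, WP-D (helper42): the number of cusps does not change under reduction.

For every prime `ℓ ∤ M` (INCLUDING `ℓ = 2, 3`) and every place `A` of `ℚ̄` over `ℓ`, the number of
poles of `j̄` on `F_{M,k}` is the number of poles of `j` on `F_M`.

Abstract part (`poleCount_xbar_eq`): a reduction model `M` with DEGREE data, such that `x` is
unramified outside `0`, `u`, `∞` for a `u ∈ A`, `u ≠ 0`.  In the chart `x⁻¹` the set
`S = {0} ∪ ({u⁻¹} ∩ A)` is a WEAK branch datum (`u⁻¹ ∈ A` implies that `u⁻¹` is a unit of `A`, so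
its residue is not the residue of `0`), and `FibreEq` at `0 ∈ S` (helper37's discriminant chain,
`Lib/GoodRed/Final.lean`) is the claim, via the bridge `fibreCard_inv_eq_card_poles`.

Modular part: `M = modularRedModelOf` (helper24), `x = j`, `u = 1728`; DEGREE data from helper66
(`GaussVal.finrank_fullC_eq_finrank_fullL`), helper19 (`GoodRedBranch.finrank_jBar`) and
`RRMod.isSeparable_fullC'`.
-/
import Mathlib
import Fermat.Agent.Lib.GenusEq.Props
import Fermat.Agent.Lib.GenusEq.CharZero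
import Fermat.Agent.Lib.GoodRed.Final
import Fermat.Agent.Lib.GoodRed.ModularData
import Fermat.Agent.Lib.GaussVal.Degree

set_option autoImplicit false
set_option linter.unusedSectionVars false
set_option linter.style.haveILetI false

noncomputable section

open AlgebraicCurve IntermediateField ModularCurve

namespace Fermat.Agent.GenusEq

open Fermat.Agent.GoodRed

section Abstract

variable {K k F Fk : Type} [Field K] [Field k] [Field F] [Field Fk] [Algebra K F] [Algebra k Fk]

/-- the branch values of the chart `x⁻¹` lying in `A`: `0`, and `u⁻¹` if it lies in `A`. -/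
def cmlSet (A : ValuationSubring K) (u : K) : Finset K :=
  open Classical in if u⁻¹ ∈ A then {0, u⁻¹} else {0}

theorem mem_cmlSet {A : ValuationSubring K} {u c : K} :
    c ∈ cmlSet A u ↔ c = 0 ∨ (c = u⁻¹ ∧ u⁻¹ ∈ A) := by
  classical
  unfold cmlSet
  by_cases h : u⁻¹ ∈ A
  · rw [if_pos h]
    simp [h]
  · rw [if_neg h]
    simp [h]

theorem cml_res_zero (M : RedModel K k F Fk) (h : (0 : K) ∈ M.A) : M.res ⟨0, h⟩ = 0 := by
  have e : (⟨0, h⟩ : M.A) = 0 := rfl
  rw [e, map_zero]

theorem cml_res_ne_zero (M : RedModel K k F Fk) {u : K} (hu : u ∈ M.A) (hu0 : u ≠ 0)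
    (h : u⁻¹ ∈ M.A) : M.res ⟨u⁻¹, h⟩ ≠ 0 := by
  intro h0
  have h1 : (⟨u⁻¹, h⟩ : M.A) * ⟨u, hu⟩ = 1 := by
    apply Subtype.ext
    show u⁻¹ * u = 1
    exact inv_mul_cancel₀ hu0
  have h2 := congrArg M.res h1
  rw [map_mul, h0, zero_mul, map_one] at h2
  exact zero_ne_one h2

/-- the WEAK branch datum of the chart `x⁻¹`, for `x` unramified outside `0`, `u`, `∞`. -/
def cmlBranch (M : RedModel K k F Fk) (n : ℕ) (u : K) (hu : u ∈ M.A) (hu0 : u ≠ 0)
    (hunram : ∀ c : K, c ≠ 0 → c ≠ u → fibreCard K M.x c = n) : BranchDataA M.inv n where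
  S := cmlSet M.A u
  S_mem := by
    intro c hc
    rcases mem_cmlSet.mp hc with h | ⟨h, h'⟩
    · rw [h]
      exact zero_mem _
    · rw [h]
      exact h'
  S_inj := by
    show ∀ c ∈ cmlSet M.A u, ∀ c' ∈ cmlSet M.A u, ∀ (hc : c ∈ M.A) (hc' : c' ∈ M.A),
      M.res ⟨c, hc⟩ = M.res ⟨c', hc'⟩ → c = c'
    intro c hc c' hc' hcA hcA' hres
    rcases mem_cmlSet.mp hc with h | ⟨h, -⟩ <;> rcases mem_cmlSet.mp hc' with h' | ⟨h', -⟩
    · rw [h, h']
    · exfalso
      subst h h'
      exact cml_res_ne_zero M hu hu0 hcA' (hres.symm.trans (cml_res_zero M hcA))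
    · exfalso
      subst h h'
      exact cml_res_ne_zero M hu hu0 hcA (hres.trans (cml_res_zero M hcA'))
    · rw [h, h']
  unram := by
    show ∀ c : K, c ∈ M.A → c ∉ cmlSet M.A u → fibreCard K M.x⁻¹ c = n
    intro c hcA hc
    have h0 : c ≠ 0 := fun h => hc (mem_cmlSet.mpr (Or.inl h))
    have h1 : c⁻¹ ≠ u := by
      intro h
      have e : c = u⁻¹ := by rw [← h, inv_inv]
      apply hc
      refine mem_cmlSet.mpr (Or.inr ⟨e, ?_⟩)
      rw [← e]
      exact hcA
    have h2 := fibreCard_inv (K := K) M.x c⁻¹ (inv_ne_zero h0)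
    rw [inv_inv] at h2
    rw [h2]
    exact hunram c⁻¹ (inv_ne_zero h0) h1

theorem zero_mem_cmlBranch (M : RedModel K k F Fk) (n : ℕ) (u : K) (hu : u ∈ M.A) (hu0 : u ≠ 0)
    (hunram : ∀ c : K, c ≠ 0 → c ≠ u → fibreCard K M.x c = n) :
    (0 : K) ∈ (cmlBranch M n u hu hu0 hunram).S :=
  mem_cmlSet.mpr (Or.inl rfl)

/-- **equality of the fibres at infinity**: the reduced curve has as many points over
`x̄ = ∞` as the curve has over `x = ∞`. -/
theorem fibreCard_inv_zero_eq [IsAlgClosed K] [CharZero K] [IsAlgClosed k]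
    (M : RedModel K k F Fk) (n : ℕ) (hdeg : DegData M n) (u : K) (hu : u ∈ M.A) (hu0 : u ≠ 0)
    (hunram : ∀ c : K, c ≠ 0 → c ≠ u → fibreCard K M.x c = n) :
    fibreCard k M.xbar⁻¹ 0 = fibreCard K M.x⁻¹ 0 := by
  have h := fibreEq_of_branchData M.inv n hdeg.inv (cmlBranch M n u hu hu0 hunram) 0
    (zero_mem _) (Or.inl (zero_mem_cmlBranch M n u hu hu0 hunram))
  have h2 : M.inv.res ⟨0, zero_mem _⟩ = 0 := cml_res_zero M.inv _
  rw [h2, M.inv_xbar] at h
  exact h

/-- **the number of poles of the base parameter does not change under reduction.** -/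
theorem poleCount_xbar_eq [IsAlgClosed K] [CharZero K] [IsAlgClosed k]
    (M : RedModel K k F Fk) (n : ℕ) (hdeg : DegData M n) (u : K) (hu : u ∈ M.A) (hu0 : u ≠ 0)
    (hunram : ∀ c : K, c ≠ 0 → c ≠ u → fibreCard K M.x c = n) :
    poleCount k Fk M.xbar = poleCount K F M.x := by
  have hx := M.x_transcendental
  have hxk : Transcendental k M.xbar := M.x_trans
  haveI : FiniteDimensional K⟮M.x⟯ F :=
    Module.finite_of_finrank_pos (by rw [hdeg.deg]; exact hdeg.pos)
  haveI : FiniteDimensional k⟮M.xbar⟯ Fk :=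
    Module.finite_of_finrank_pos (by rw [hdeg.degk]; exact hdeg.pos)
  haveI : Algebra.IsSeparable k⟮M.xbar⟯ Fk := hdeg.sepk
  haveI : Algebra.IsSeparable K⟮M.x⟯ F := Algebra.IsSeparable.of_integral _ _
  unfold poleCount
  rw [← fibreCard_inv_eq_card_poles hx, ← fibreCard_inv_eq_card_poles hxk]
  exact fibreCard_inv_zero_eq M n hdeg u hu hu0 hunram

end Abstract

section Modular

variable (N : ℕ) [NeZero N] {ℓ : ℕ} (hℓ : ℓ.Prime)
  {A : ValuationSubring (AlgebraicClosure ℚ)} (hA : A.LiesOverPrime ℓ) (hℓN : ¬ ℓ ∣ N)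

set_option synthInstance.maxHeartbeats 400000 in
set_option maxHeartbeats 1000000 in
/-- the reduced base parameter of the modular reduction model is `j̄`. -/
theorem cml_xbar :
    (modularRedModelOf N hℓ hA hℓN).xbar
      = Fermat.Agent.RRMod.jC (IsLocalRing.ResidueField A) N :=
  Subtype.ext (coe_modularRedModel_xbar N hℓ hA (rangeAt N hℓ hA hℓN))

set_option synthInstance.maxHeartbeats 400000 in
set_option maxHeartbeats 1000000 in
/-- DEGREE data of the modular reduction model, unconditionally for `ℓ ∤ N`. -/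
theorem cml_degData :
    DegData (modularRedModelOf N hℓ hA hℓN) (CongruenceSubgroup.Gamma0 N).index := by
  haveI : IsAlgClosed (IsLocalRing.ResidueField A) :=
    Fermat.Agent.FrobTrace.isAlgClosed_residueField A
  haveI : Fact ℓ.Prime := ⟨hℓ⟩
  refine degData_modularRedModel N hℓ hA (rangeAt N hℓ hA hℓN) ?_ ?_
  · rw [Fermat.Agent.GaussVal.finrank_fullC_eq_finrank_fullL A ℓ N hA hℓN _
      (coe_modularRedModel_xbar N hℓ hA (rangeAt N hℓ hA hℓN)) (Fermat.Agent.S24.jBar N)
      (Fermat.Agent.S24.coe_jBar_eq_jqModC N)]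
    exact Fermat.Agent.GoodRedBranch.finrank_jBar N
  · have h := Fermat.Agent.RRMod.isSeparable_fullC' (IsLocalRing.ResidueField A) N
    have e := cml_xbar N hℓ hA hℓN
    unfold modularRedModelOf at e
    rw [e]
    exact h

theorem cml_1728_mem (A : ValuationSubring (AlgebraicClosure ℚ)) :
    (1728 : AlgebraicClosure ℚ) ∈ A := by
  have h := (((1728 : ℕ) : A)).2
  have e : ((((1728 : ℕ) : A)) : AlgebraicClosure ℚ) = 1728 := by
    show ((1728 : ℕ) : AlgebraicClosure ℚ) = 1728
    norm_num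
  rw [e] at h
  exact h

set_option synthInstance.maxHeartbeats 400000 in
set_option maxHeartbeats 1000000 in
/-- **WP-D, comparison**: `j̄` has as many poles on `F_{N,k}` as `j` has on `F_N`,
for every prime `ℓ ∤ N` and every place `A` over `ℓ`. -/
theorem poleCount_jC_eq (N : ℕ) [NeZero N] {ℓ : ℕ} (hℓ : ℓ.Prime)
    {A : ValuationSubring (AlgebraicClosure ℚ)} (hA : A.LiesOverPrime ℓ) (hℓN : ¬ ℓ ∣ N) :
    poleCount (IsLocalRing.ResidueField A)
        ↥(modularFunctionFieldFullC (IsLocalRing.ResidueField A) N)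
        (Fermat.Agent.RRMod.jC (IsLocalRing.ResidueField A) N)
      = poleCount (AlgebraicClosure ℚ) ↥(modularFunctionFieldBar N)
          (Fermat.Agent.S24.jBar N) := by
  haveI : IsAlgClosed (IsLocalRing.ResidueField A) :=
    Fermat.Agent.FrobTrace.isAlgClosed_residueField A
  have h := poleCount_xbar_eq (modularRedModelOf N hℓ hA hℓN)
    (CongruenceSubgroup.Gamma0 N).index (cml_degData N hℓ hA hℓN) 1728 (cml_1728_mem A)
    (by norm_num)
    (fun c hc0 hc => fibreCard_jBar_of_not_mem N (fun hmem =>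
      (mem_branchSet.mp hmem).elim hc0 hc))
  rw [cml_xbar] at h
  exact h

/-- **WP-D**: the number of places of `F_{M,k}` over `j̄ = ∞` is the number of cusps of `Γ₀(M)`,
given the count in characteristic `0` (WP-A). -/
theorem cuspCountModL_of_bar (M : ℕ) [NeZero M] (h : CuspCountBar M) : CuspCountModL M := by
  intro ℓ hℓ hℓM A hA
  rw [poleCount_jC_eq M hℓ hA hℓM]
  exact h

/-- **WP-D, unconditional**: for every prime `ℓ ∤ M` and every place `A` over `ℓ`, the number of
places of `F_{M,k}` over `j̄ = ∞` is the number of cusps of `Γ₀(M)`. -/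
theorem cuspCountModL (M : ℕ) [NeZero M] : CuspCountModL M :=
  cuspCountModL_of_bar M (cuspCountBar M)

end Modular

end Fermat.Agent.GenusEq
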