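import Mathlib
import Fermat.Agent.Lib.GenusEq.Props

set_option autoImplicit false
set_option linter.style.haveILetI false
set_option linter.unusedSectionVars false

/-!
# GenusEq, WP-E (helper93): the abstract core of the cusps-only Hurwitz argument

`B ⊆ F` function fields over an algebraically closed field `k` of ANY characteristic, `B` of genus `0`,
`y ∈ B` transcendental (`y = j̄`), `F / k(y)` finite separable.  Then, with `n' = [F : B]`,

  `n' * #{poles of y on B} - #{poles of y on F} ≤ 2 g(F) - 2 + 2 n'`    and    `[F : k(y)] = [B : k(y)] * n'`.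

Inputs: `RationalOfGenusZero` (WP-B), `PoleCountFibres` (WP-C), helper40's `hurwitz_lower_fibres`.
-/

noncomputable section

open AlgebraicCurve IntermediateField

namespace Fermat.Agent.GenusEq

open Fermat.Agent.RR Fermat.Agent.RRHur

variable {k B F : Type} [Field k] [Field B] [Field F] [Algebra k B] [Algebra k F]

/-- a pole in the sense of `ord`. -/
theorem exists_ord_neg (h : IsRRField k B) {y : B} (hy : Transcendental k y) :
    ∃ v : Place k B, v.ord y < 0 := by
  obtain ⟨v, hv⟩ := exists_pole h hy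
  exact ⟨v, (one_lt_adicValuation_iff v).mp hv⟩

theorem map_adjoin_simple (ι : B →ₐ[k] F) (x : B) :
    (k⟮x⟯).map ι = k⟮ι x⟯ := by
  rw [adjoin_map, Set.image_singleton]

theorem transcendental_map (ι : B →ₐ[k] F) {x : B} (hx : Transcendental k x) :
    Transcendental k (ι x) := by
  intro h
  exact hx ((isAlgebraic_algHom_iff ι ι.toRingHom.injective).mp h)

/-- the degrees in the tower `k(ι y) ⊆ k(ι x) = ι B ⊆ F`. -/
theorem finrank_tower (ι : B →ₐ[k] F) (x y : B) (hx : k⟮x⟯ = ⊤) :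
    Module.finrank k⟮y⟯ B * Module.finrank k⟮ι x⟯ F = Module.finrank k⟮ι y⟯ F := by
  have hle : k⟮ι y⟯ ≤ k⟮ι x⟯ := by
    rw [adjoin_simple_le_iff, ← map_adjoin_simple ι x, hx]
    exact ⟨y, mem_top, rfl⟩
  rw [← relfinrank_mul_finrank_top hle, ← map_adjoin_simple ι y, ← map_adjoin_simple ι x,
    relfinrank_map_map, hx, relfinrank_top_right]

theorem adjoin_le_of_top (ι : B →ₐ[k] F) (x y : B) (hx : k⟮x⟯ = ⊤) : k⟮ι y⟯ ≤ k⟮ι x⟯ := by
  rw [adjoin_simple_le_iff, ← map_adjoin_simple ι x, hx]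
  exact ⟨y, mem_top, rfl⟩

/-- **the abstract core**. -/
theorem hurwitz_core [IsAlgClosed k] (hRat : RationalOfGenusZero) (hPF : PoleCountFibres)
    (hB : IsRRField k B) (hF : IsRRField k F) (hgB : genusFF k B = 0)
    (ι : B →ₐ[k] F) (y : B) (hy : Transcendental k y)
    [FiniteDimensional k⟮ι y⟯ F] [Algebra.IsSeparable k⟮ι y⟯ F] :
    ∃ n' : ℕ, Module.finrank k⟮y⟯ B * n' = Module.finrank k⟮ι y⟯ F ∧
      (n' : ℤ) * poleCount k B y - poleCount k F (ι y) ≤
        2 * (genusFF k F : ℤ) - 2 + 2 * (n' : ℤ) := by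
  obtain ⟨P, hP⟩ := exists_ord_neg hB hy
  obtain ⟨x, hxtr, hxP, hxQ, hxtop⟩ := hRat k B hB hgB P
  have hxy : ∀ Q : Place k B, Q.ord x < 0 → Q.ord y < 0 := by
    intro Q hQ
    by_cases hQP : Q = P
    · rw [hQP]; exact hP
    · exact absurd (hxQ Q hQP) (not_le.mpr hQ)
  have htow := finrank_tower ι x y hxtop
  have hle := adjoin_le_of_top ι x y hxtop
  have hpos : 0 < Module.finrank k⟮ι y⟯ F := Module.finrank_pos
  have hn'pos : 0 < Module.finrank k⟮ι x⟯ F := by
    rcases Nat.eq_zero_or_pos (Module.finrank k⟮ι x⟯ F) with h0 | h0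
    · rw [h0, mul_zero] at htow
      omega
    · exact h0
  haveI : FiniteDimensional k⟮ι x⟯ F := Module.finite_of_finrank_pos hn'pos
  letI : Algebra k⟮ι y⟯ k⟮ι x⟯ := (IntermediateField.inclusion hle).toRingHom.toAlgebra
  haveI : IsScalarTower k⟮ι y⟯ k⟮ι x⟯ F := IsScalarTower.of_algebraMap_eq (fun _ => rfl)
  haveI : Algebra.IsSeparable k⟮ι x⟯ F :=
    Algebra.isSeparable_tower_top_of_isSeparable k⟮ι y⟯ k⟮ι x⟯ F
  obtain ⟨S, hScard, hSsum⟩ := hPF k B F hB hF ι x y hxtr hxtop hxy inferInstance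
  have hH := hurwitz_lower_fibres hF (transcendental_map ι hxtr) S
  refine ⟨Module.finrank k⟮ι x⟯ F, htow, ?_⟩
  have e1 : ∑ c ∈ S, ((Module.finrank k⟮ι x⟯ F : ℤ) -
        (Nat.card {v : Place k F // 0 < v.ord (ι x - algebraMap k F c)} : ℤ)) =
      (S.card : ℤ) * (Module.finrank k⟮ι x⟯ F : ℤ) -
        ∑ c ∈ S, (zeroCount k F (ι x - algebraMap k F c) : ℤ) := by
    rw [Finset.sum_sub_distrib, Finset.sum_const, nsmul_eq_mul]
    rfl
  have e2 : (poleCount k F (ι y) : ℤ) =
      ∑ c ∈ S, (zeroCount k F (ι x - algebraMap k F c) : ℤ) + (poleCount k F (ι x) : ℤ) := by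
    rw [← hSsum]
    push_cast
    rfl
  have e3 : (poleCount k B y : ℤ) = (S.card : ℤ) + 1 := by
    rw [← hScard]
    push_cast
    rfl
  have e4 : (Nat.card {v : Place k F // v.ord (ι x) < 0} : ℤ) = (poleCount k F (ι x) : ℤ) := rfl
  rw [e1, e4] at hH
  rw [e2, e3]
  linarith

end Fermat.Agent.GenusEq
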