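import Mathlib
import Fermat.Agent.Lib.GenusEq.Bridge
import Fermat.Agent.S24.Assembly
import Fermat.Agent.F3.Genus.GenusM

set_option autoImplicit false
set_option linter.style.haveILetI false
set_option linter.unusedSectionVars false

/-!
# The adelic genus of the function field of `X₀(N)` over `ℚ̄`  (helper90)

`genusFF ℚ̄ F_N = genusFormula N` for every level, and `= 1 + ψ(M)/12 - C(M)/2` for the
auxiliary levels `M = 4 N`, `9 N` (piece (6e) of the chain B → A).
-/

noncomputable section

open AlgebraicCurve ModularCurve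

namespace Fermat.Agent.GenusEq

/-- the function field of `X₀(N)` over `ℚ̄` satisfies the standing hypotheses of the
Riemann-Roch library. -/
theorem isRRField_modularFunctionFieldBar (N : ℕ) [NeZero N] :
    Fermat.Agent.RR.IsRRField (AlgebraicClosure ℚ) ↥(ModularCurve.modularFunctionFieldBar N) :=
  Fermat.Agent.RR.isRRField_of_charZero (Fermat.Agent.S24.isFunctionFieldOver_jBar N)

/-- divisors of differentials exist on the function field of `X₀(N)` over `ℚ̄`. -/
theorem hasCanonicalDivisor_modularFunctionFieldBar (N : ℕ) [NeZero N] :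
    AlgebraicCurve.HasCanonicalDivisor (K := AlgebraicClosure ℚ)
      (F := ↥(ModularCurve.modularFunctionFieldBar N)) :=
  hasCanonicalDivisor_of_ff (Fermat.Agent.S24.isFunctionFieldOver_jBar N)

/-- **the adelic genus of `X₀(N)`** is given by the classical genus formula. -/
theorem genusFF_modularFunctionFieldBar (N : ℕ) [NeZero N] :
    (genusFF (AlgebraicClosure ℚ) ↥(ModularCurve.modularFunctionFieldBar N) : ℚ) =
      ModularCurve.genusFormula N := by
  haveI := hasCanonicalDivisor_modularFunctionFieldBar N
  rw [← genus_eq_genusFF (Fermat.Agent.S24.isFunctionFieldOver_jBar N)]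
  exact Fermat.Agent.S24.genus_modularFunctionFieldBar N

/-- the adelic genus at a level divisible by `4`. -/
theorem genusFF_modularFunctionFieldBar_of_four_dvd (M : ℕ) [NeZero M] (h : 4 ∣ M) :
    (genusFF (AlgebraicClosure ℚ) ↥(ModularCurve.modularFunctionFieldBar M) : ℚ) =
      1 + (dedekindPsi M : ℚ) / 12 - (cuspCount M : ℚ) / 2 := by
  rw [genusFF_modularFunctionFieldBar, Fermat.Agent.F3Genus.genusFormula_of_four_dvd h]

/-- the adelic genus at a level divisible by `9`. -/
theorem genusFF_modularFunctionFieldBar_of_nine_dvd (M : ℕ) [NeZero M] (h : 9 ∣ M) :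
    (genusFF (AlgebraicClosure ℚ) ↥(ModularCurve.modularFunctionFieldBar M) : ℚ) =
      1 + (dedekindPsi M : ℚ) / 12 - (cuspCount M : ℚ) / 2 := by
  rw [genusFF_modularFunctionFieldBar, Fermat.Agent.F3Genus.genusFormula_of_nine_dvd h]

/-- integer form: `12 g + 6 C = 12 + ψ` at a level divisible by `4` or `9`. -/
theorem twelve_genusFF_add (M : ℕ) [NeZero M] (h : 4 ∣ M ∨ 9 ∣ M) :
    12 * genusFF (AlgebraicClosure ℚ) ↥(ModularCurve.modularFunctionFieldBar M) +
      6 * cuspCount M = 12 + dedekindPsi M := by
  have hq : (genusFF (AlgebraicClosure ℚ) ↥(ModularCurve.modularFunctionFieldBar M) : ℚ) =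
      1 + (dedekindPsi M : ℚ) / 12 - (cuspCount M : ℚ) / 2 := by
    rcases h with h | h
    · exact genusFF_modularFunctionFieldBar_of_four_dvd M h
    · exact genusFF_modularFunctionFieldBar_of_nine_dvd M h
  have : (12 * genusFF (AlgebraicClosure ℚ) ↥(ModularCurve.modularFunctionFieldBar M) +
      6 * cuspCount M : ℚ) = 12 + dedekindPsi M := by
    rw [hq]
    ring
  exact_mod_cast this

end Fermat.Agent.GenusEq
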