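import Mathlib
import Fermat.Agent.Lib.GenusEq.Core
import Fermat.Agent.Lib.GenusEq.GenusFM
import Fermat.Agent.Lib.FrobTrace.Residue

set_option autoImplicit false
set_option linter.style.haveILetI false
set_option linter.unusedSectionVars false
set_option synthInstance.maxHeartbeats 400000

/-!
# GenusEq, WP-E (helper93): genus equality at the auxiliary levels `M`, `4 ∣ M` or `9 ∣ M`

`genusGe_of_inputs`: for `r ∈ {4, 9}`, `r ∣ M`, `ℓ ∤ M`:  `g(F_M) ≤ g(F_{M,k})`,
from the work packages of `Props.lean` (cusp counts mod `ℓ`, degrees mod `ℓ`, Deuring's inequality at the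
base level `r`, and the two abstract lemmas), helper40's Hurwitz bound (inside `hurwitz_core`)
and helper90's genus formula `twelve_genusFF_add`.
-/

noncomputable section

open AlgebraicCurve IntermediateField ModularCurve

namespace Fermat.Agent.GenusEq

open Fermat.Agent.RR Fermat.Agent.RRMod

theorem cuspCount_four : cuspCount 4 = 3 := by decide

theorem cuspCount_nine : cuspCount 9 = 4 := by decide

theorem dedekindPsi_four : dedekindPsi 4 = 6 := by
  have h := Fermat.Agent.S20.dedekindPsi_prime_pow (p := 2) (k := 1) Nat.prime_two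
  norm_num at h
  exact h

theorem dedekindPsi_nine : dedekindPsi 9 = 12 := by
  have h := Fermat.Agent.S20.dedekindPsi_prime_pow (p := 3) (k := 1) Nat.prime_three
  norm_num at h
  exact h

/-- the base levels have genus `0` in characteristic `0`. -/
theorem genusFF_bar_base (r : ℕ) [NeZero r] (hr : r = 4 ∨ r = 9) :
    genusFF (AlgebraicClosure ℚ) ↥(modularFunctionFieldBar r) = 0 := by
  have h := twelve_genusFF_add r (by rcases hr with rfl | rfl <;> simp)
  rcases hr with rfl | rfl
  · rw [cuspCount_four, dedekindPsi_four] at h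
    omega
  · rw [cuspCount_nine, dedekindPsi_nine] at h
    omega

/-- **Genus lower bound in characteristic `ℓ`** at a level `M` divisible by `r ∈ {4, 9}`. -/
theorem genusGe_of_inputs (r M : ℕ) [NeZero r] [NeZero M] (hr : r = 4 ∨ r = 9) (hrM : r ∣ M)
    (hRat : RationalOfGenusZero) (hPF : PoleCountFibres)
    (hCr : CuspCountModL r) (hCM : CuspCountModL M)
    (hDr : DegreeModL r) (hDM : DegreeModL M)
    (hLe : GenusLe r) : GenusGe M := by
  intro ℓ hℓ hℓM A hA
  have hℓr : ¬ ℓ ∣ r := fun h => hℓM (h.trans hrM)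
  haveI : IsAlgClosed (IsLocalRing.ResidueField A) :=
    Fermat.Agent.FrobTrace.isAlgClosed_residueField A
  set k := IsLocalRing.ResidueField A with hk
  have hB := isRRField_fullC' k r
  have hF := isRRField_fullC' k M
  have hgB : genusFF k ↥(modularFunctionFieldFullC k r) = 0 := by
    have h1 := hLe ℓ hℓ hℓr A hA
    rw [genusFF_bar_base r hr] at h1
    exact Nat.le_zero.mp h1
  let ι : ↥(modularFunctionFieldFullC k r) →ₐ[k] ↥(modularFunctionFieldFullC k M) :=
    IntermediateField.inclusion (full_degeneracyC_le k hrM)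
  have hιy : ι (jC k r) = jC k M := rfl
  haveI : FiniteDimensional k⟮ι (jC k r)⟯ ↥(modularFunctionFieldFullC k M) := by
    rw [hιy]; exact finiteDimensional_fullC' k M
  haveI : Algebra.IsSeparable k⟮ι (jC k r)⟯ ↥(modularFunctionFieldFullC k M) := by
    rw [hιy]; exact isSeparable_fullC' k M
  obtain ⟨n', hdeg, hineq⟩ := hurwitz_core hRat hPF hB hF hgB ι (jC k r) (transcendental_jC k r)
  rw [hιy] at hdeg hineq
  rw [hDr ℓ hℓ hℓr A hA, hDM ℓ hℓ hℓM A hA] at hdeg
  rw [hCr ℓ hℓ hℓr A hA, hCM ℓ hℓ hℓM A hA] at hineq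
  have h6e := twelve_genusFF_add M (by
    rcases hr with rfl | rfl
    · exact Or.inl hrM
    · exact Or.inr hrM)
  have h6e' : (12 : ℤ) * (genusFF (AlgebraicClosure ℚ) ↥(modularFunctionFieldBar M) : ℤ) +
      6 * (cuspCount M : ℤ) = 12 + (dedekindPsi M : ℤ) := by exact_mod_cast h6e
  have hdeg' : (dedekindPsi r : ℤ) * (n' : ℤ) = (dedekindPsi M : ℤ) := by exact_mod_cast hdeg
  have goal : (genusFF (AlgebraicClosure ℚ) ↥(modularFunctionFieldBar M) : ℤ) ≤
      (genusFF k ↥(modularFunctionFieldFullC k M) : ℤ) := by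
    rcases hr with rfl | rfl
    · rw [cuspCount_four] at hineq
      rw [dedekindPsi_four] at hdeg'
      push_cast at hineq hdeg'
      linarith
    · rw [cuspCount_nine] at hineq
      rw [dedekindPsi_nine] at hdeg'
      push_cast at hineq hdeg'
      linarith
  exact_mod_cast goal

/-- **Genus equality** at a level `M` divisible by `r ∈ {4, 9}`, for every prime `ℓ ∤ M`. -/
theorem genusFF_eq_of_inputs (r M : ℕ) [NeZero r] [NeZero M] (hr : r = 4 ∨ r = 9) (hrM : r ∣ M)
    (hRat : RationalOfGenusZero) (hPF : PoleCountFibres)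
    (hCr : CuspCountModL r) (hCM : CuspCountModL M)
    (hDr : DegreeModL r) (hDM : DegreeModL M)
    (hLer : GenusLe r) (hLeM : GenusLe M)
    (ℓ : ℕ) (hℓ : ℓ.Prime) (hℓM : ¬ ℓ ∣ M)
    (A : ValuationSubring (AlgebraicClosure ℚ)) (hA : A.LiesOverPrime ℓ) :
    genusFF (AlgebraicClosure ℚ) ↥(modularFunctionFieldBar M) =
      genusFF (IsLocalRing.ResidueField A)
        ↥(modularFunctionFieldFullC (IsLocalRing.ResidueField A) M) :=
  le_antisymm (genusGe_of_inputs r M hr hrM hRat hPF hCr hCM hDr hDM hLer ℓ hℓ hℓM A hA)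
    (hLeM ℓ hℓ hℓM A hA)

end Fermat.Agent.GenusEq
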