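import Fermat.Agent.Lib.GenusEq.Props

/-!
# GenusEq, WP-B: a function field of genus `0` is rational (helper58)

`rationalOfGenusZero : RationalOfGenusZero` (Prop of `Lib/GenusEq/Props.lean`).

Proof (pure Lib/RR, no finiteness of `F / k(x)` needed beforehand):
* Riemann's inequality for `D = P`: `ℓ(P) ≥ 2`, so there is `x ∈ L(P)`, `x ∉ k`: simple pole at `P`,
  no other pole; `x` is transcendental since `k` is algebraically closed.
* `L(n P) ⊆ k(x)` by induction on `n` (`dim L((n+1) P) / L(n P) ≤ 1`, and `x^(n+1)` is new).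
* for `f ≠ 0` with pole divisor `E` of degree `d`: `L(d P)` and `f L(d P)` are two subspaces of
  dimension `≥ d + 1` of `L(d P + E)`, which has dimension `≤ 2 d + 1`: they meet, `f = u' / u`.
-/

set_option autoImplicit false

noncomputable section

open AlgebraicCurve IntermediateField

namespace Fermat.Agent.GenusEq

open Fermat.Agent.RR

namespace Rational

variable {k F : Type} [Field k] [Field F] [Algebra k F]

/-- a function with a simple pole at `P` and no other pole. -/
structure IsPar (x : F) (P : Place k F) : Prop where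
  ord_pole : P.ord x = -1
  ord_nonneg : ∀ Q : Place k F, Q ≠ P → 0 ≤ Q.ord x

/-- genus `0`: existence of a parameter with pole `P`. -/
theorem exists_isPar (h : IsRRField k F) (hg : genusFF k F = 0) (P : Place k F) :
    ∃ x : F, IsPar x P ∧ x ∉ Set.range (algebraMap k F) := by
  classical
  set D : Divisor k F := (0 : Divisor k F) + Finsupp.single P 1 with hD
  have hdeg : Divisor.degree D = 1 := by
    rw [hD, degree_add_single h, map_zero, zero_add]
  have hRI := riemann_inequality h D
  rw [hdeg, hg] at hRI
  have hell : 2 ≤ ell D := by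
    have : (2 : ℤ) ≤ (ell D : ℤ) := by simpa using hRI
    exact_mod_cast this
  have hnle : ¬ riemannRochSpace D ≤ riemannRochSpace (0 : Divisor k F) := by
    intro hle
    have := finite_riemannRochSpace h (0 : Divisor k F)
    have h1 := Submodule.finrank_mono hle
    have h2 : ell (0 : Divisor k F) = 1 := ell_zero h
    rw [ell_def] at hell h2
    omega
  obtain ⟨x, hxD, hx0⟩ := SetLike.not_le_iff_exists.mp hnle
  obtain ⟨hxne, hord⟩ := ord_eq_of_mem_add_single_of_not_mem (D := (0 : Divisor k F)) hxD hx0
  refine ⟨x, ⟨by simpa using hord, fun Q hQ => ?_⟩, ?_⟩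
  · have := ((mem_riemannRochSpace_iff.mp hxD) Q).resolve_left hxne
    rw [hD, Finsupp.add_apply, Finsupp.single_apply, if_neg (Ne.symm hQ)] at this
    simpa using this
  · intro hx
    exact hx0 ((mem_riemannRochSpace_zero_iff h x).mpr hx)

/-- over an algebraically closed field, a non-constant element is transcendental. -/
theorem transcendental_of_not_mem_range [IsAlgClosed k] {x : F}
    (hx : x ∉ Set.range (algebraMap k F)) : Transcendental k x := by
  intro halg
  have hint : IsIntegral k x := halg.isIntegral
  have hdeg := IsAlgClosed.degree_eq_one_of_irreducible k (minpoly.irreducible hint)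
  exact hx (minpoly.mem_range_of_degree_eq_one k x hdeg)

variable {x : F} {P : Place k F}

theorem IsPar.ne_zero (hx : IsPar x P) : x ≠ 0 := by
  rintro rfl
  have := hx.ord_pole
  rw [Place.ord_zero] at this
  omega

/-- `x^i ∈ L(n P)` for `i ≤ n`. -/
theorem IsPar.pow_mem (hx : IsPar x P) (n i : ℕ) (hi : i ≤ n) :
    x ^ i ∈ riemannRochSpace (n • Finsupp.single P (1 : ℤ)) := by
  classical
  rw [mem_riemannRochSpace_iff]
  intro v
  right
  rw [← zpow_natCast, v.ord_zpow, Finsupp.smul_apply, nsmul_eq_mul]
  by_cases hv : v = P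
  · subst hv
    rw [hx.ord_pole, Finsupp.single_eq_same]
    have : (i : ℤ) ≤ n := by exact_mod_cast hi
    linarith
  · rw [Finsupp.single_apply, if_neg (Ne.symm hv)]
    have h1 := hx.ord_nonneg v hv
    have h2 : 0 ≤ (i : ℤ) * v.ord x := mul_nonneg (Int.natCast_nonneg i) h1
    simpa using h2

/-- `L(n P) ⊆ k(x)`. -/
theorem IsPar.mem_adjoin (h : IsRRField k F) (hx : IsPar x P) :
    ∀ (n : ℕ) (f : F), f ∈ riemannRochSpace (n • Finsupp.single P (1 : ℤ)) → f ∈ k⟮x⟯ := by
  classical
  intro n
  induction n with
  | zero =>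
    intro f hf
    rw [zero_smul, mem_riemannRochSpace_zero_iff h] at hf
    obtain ⟨c, rfl⟩ := hf
    exact IntermediateField.algebraMap_mem _ c
  | succ n ih =>
    intro f hf
    have hsucc : (n + 1) • Finsupp.single P (1 : ℤ) =
        n • Finsupp.single P (1 : ℤ) + Finsupp.single P 1 := succ_nsmul _ _
    rw [hsucc] at hf
    have hg : x ^ (n + 1) ∈
        riemannRochSpace (n • Finsupp.single P (1 : ℤ) + Finsupp.single P 1) := by
      rw [← hsucc]
      exact hx.pow_mem (n + 1) (n + 1) le_rfl
    have hgD : x ^ (n + 1) ∉ riemannRochSpace (n • Finsupp.single P (1 : ℤ)) := by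
      intro hmem
      have := ((mem_riemannRochSpace_iff.mp hmem) P).resolve_left (pow_ne_zero _ hx.ne_zero)
      rw [← zpow_natCast, P.ord_zpow, hx.ord_pole, Finsupp.smul_apply,
        Finsupp.single_eq_same] at this
      push_cast at this
      simp only [nsmul_eq_mul, mul_one] at this
      omega
    obtain ⟨c, hc⟩ := exists_smul_sub_mem h _ P hf hg hgD
    have h1 := ih _ hc
    have h2 : c • x ^ (n + 1) ∈ k⟮x⟯ := by
      rw [Algebra.smul_def]
      exact mul_mem (IntermediateField.algebraMap_mem _ c)
        (_root_.pow_mem (IntermediateField.mem_adjoin_simple_self k x) _)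
    have h3 : f = (f - c • x ^ (n + 1)) + c • x ^ (n + 1) := by ring
    rw [h3]
    exact add_mem h1 h2

/-- genus `0`: `F = k(x)`. -/
theorem IsPar.adjoin_eq_top (h : IsRRField k F) (hg : genusFF k F = 0) (hx : IsPar x P) :
    k⟮x⟯ = ⊤ := by
  classical
  rw [eq_top_iff]
  intro f _
  by_cases hf : f = 0
  · rw [hf]
    exact zero_mem _
  set E : Divisor k F := poleDiv h f with hE
  have hE0 : 0 ≤ E := poleDiv_nonneg h f
  have hdE : 0 ≤ Divisor.degree E := degree_nonneg_of_nonneg h hE0
  obtain ⟨d, hd⟩ := Int.eq_ofNat_of_zero_le hdE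
  set D : Divisor k F := d • Finsupp.single P (1 : ℤ) with hD
  have hdegD : Divisor.degree D = d := by
    rw [hD, map_nsmul, Divisor.degree_single, h.deg_one]
    simp
  have hAB : riemannRochSpace D ≤ riemannRochSpace (D + E) :=
    riemannRochSpace_mono (le_add_of_nonneg_right hE0)
  let φ : F →ₗ[k] F := LinearMap.mulLeft k f
  have hφ : ∀ u, φ u = f * u := fun u => rfl
  have hφinj : Function.Injective φ := by
    intro a b hab
    rw [hφ, hφ] at hab
    exact mul_left_cancel₀ hf hab
  have hA'B : (riemannRochSpace D).map φ ≤ riemannRochSpace (D + E) := by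
    rintro _ ⟨u, hu, rfl⟩
    rw [hφ]
    have hu' := mem_riemannRochSpace_iff.mp hu
    rw [mem_riemannRochSpace_iff]
    intro v
    by_cases hu0 : u = 0
    · left
      rw [hu0, mul_zero]
    right
    have h1 := (hu' v).resolve_left hu0
    rw [v.ord_mul hf hu0, Finsupp.add_apply, hE, poleDiv_apply]
    have := le_max_left (-(v.ord f)) 0
    omega
  have hfinA : Module.Finite k (riemannRochSpace D) := finite_riemannRochSpace h D
  have hfinB : Module.Finite k (riemannRochSpace (D + E)) := finite_riemannRochSpace h (D + E)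
  have hdimA : d + 1 ≤ Module.finrank k (riemannRochSpace D) := by
    have h1 := riemann_inequality h D
    rw [hdegD, hg, ell_def] at h1
    have h2 : ((d + 1 : ℕ) : ℤ) ≤ (Module.finrank k (riemannRochSpace D) : ℤ) := by
      push_cast
      simpa using h1
    exact_mod_cast h2
  have hdimA' : Module.finrank k ((riemannRochSpace D).map φ) =
      Module.finrank k (riemannRochSpace D) :=
    (Submodule.equivMapOfInjective φ hφinj (riemannRochSpace D)).finrank_eq.symm
  have hdimB : Module.finrank k (riemannRochSpace (D + E)) ≤ 2 * d + 1 := by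
    have h0 : 0 ≤ Divisor.degree (D + E) := by
      rw [map_add, hdegD, hd]
      positivity
    have h1 := ell_le_degree_add_one h h0
    rw [map_add, hdegD, hd, ell_def] at h1
    have h2 : (Module.finrank k (riemannRochSpace (D + E)) : ℤ) ≤ ((2 * d + 1 : ℕ) : ℤ) := by
      push_cast
      linarith
    exact_mod_cast h2
  have hfinA' : Module.Finite k ((riemannRochSpace D).map φ) :=
    Module.Finite.of_injective (Submodule.inclusion hA'B) (Submodule.inclusion_injective _)
  have hsup : Module.finrank k ↥(riemannRochSpace D ⊔ (riemannRochSpace D).map φ) ≤ 2 * d + 1 :=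
    (Submodule.finrank_mono (sup_le hAB hA'B)).trans hdimB
  have hsum := Submodule.finrank_sup_add_finrank_inf_eq (riemannRochSpace D)
    ((riemannRochSpace D).map φ)
  have hinf : 0 < Module.finrank k ↥(riemannRochSpace D ⊓ (riemannRochSpace D).map φ) := by
    omega
  have hne : riemannRochSpace D ⊓ (riemannRochSpace D).map φ ≠ ⊥ := by
    intro hb
    rw [hb, finrank_bot] at hinf
    exact lt_irrefl _ hinf
  obtain ⟨w, hw, hw0⟩ := Submodule.exists_mem_ne_zero_of_ne_bot hne
  obtain ⟨hwA, u, huA, huw⟩ := hw
  rw [hφ] at huw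
  have hu0 : u ≠ 0 := by
    rintro rfl
    apply hw0
    rw [← huw, mul_zero]
  have hfu : f = w / u := by
    rw [eq_div_iff hu0]
    exact huw
  rw [hfu]
  exact div_mem (hx.mem_adjoin h d w hwA) (hx.mem_adjoin h d u huA)

end Rational

/-- (6d) a function field of genus `0` over an algebraically closed field is rational, with a
generator having a simple pole at a prescribed place and no other pole. -/
theorem rationalOfGenusZero : RationalOfGenusZero := by
  intro k F _ _ _ _ h hg P
  obtain ⟨x, hx, hxk⟩ := Rational.exists_isPar h hg P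
  exact ⟨x, Rational.transcendental_of_not_mem_range hxk, hx.ord_pole, hx.ord_nonneg,
    hx.adjoin_eq_top h hg⟩

end Fermat.Agent.GenusEq
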