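import Mathlib
import Fermat.Agent.Lib.GenusEq.Assembly
import Fermat.Agent.Lib.GenusEq.Inputs
import Fermat.Agent.Lib.GenusEq.Rational

set_option autoImplicit false
set_option linter.style.haveILetI false
set_option linter.unusedSectionVars false
set_option synthInstance.maxHeartbeats 400000

/-!
# GenusEq (helper93): genus equality at the auxiliary levels, from the TWO remaining work packages

`genusFF_eq_of_two`: for `4 ∣ M` or `9 ∣ M`, and every prime `ℓ ∤ M` (INCLUDING `ℓ = 2, 3`),
`genusFF ℚ̄ F_M = genusFF k F_{M,k}`, from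
* `PoleCountFibres`   (WP-C, helper90),
* `CuspCountModL 4`, `CuspCountModL 9`, `CuspCountModL M`   (WP-D, helper42; from GoodRed).
Everything else (degrees helper66, Deuring inequality helper80 + helper5, Hurwitz helper40,
genus formula helper90, genus `0` ⇒ rational helper58) is discharged here.
-/

noncomputable section

open AlgebraicCurve IntermediateField ModularCurve

namespace Fermat.Agent.GenusEq

/-- the base level `r ∈ {4, 9}` of a level divisible by `4` or `9`. -/
theorem exists_base {M : ℕ} (h : 4 ∣ M ∨ 9 ∣ M) : ∃ r : ℕ, (r = 4 ∨ r = 9) ∧ r ∣ M := by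
  rcases h with h | h
  · exact ⟨4, Or.inl rfl, h⟩
  · exact ⟨9, Or.inr rfl, h⟩

/-- **Genus equality at the auxiliary levels**, from WP-C and WP-D. -/
theorem genusFF_eq_of_two (hPF : PoleCountFibres)
    (hC : ∀ (L : ℕ) [NeZero L], CuspCountModL L)
    (M : ℕ) [NeZero M] (h : 4 ∣ M ∨ 9 ∣ M)
    (ℓ : ℕ) (hℓ : ℓ.Prime) (hℓM : ¬ ℓ ∣ M)
    (A : ValuationSubring (AlgebraicClosure ℚ)) (hA : A.LiesOverPrime ℓ) :
    genusFF (AlgebraicClosure ℚ) ↥(modularFunctionFieldBar M) =
      genusFF (IsLocalRing.ResidueField A)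
        ↥(modularFunctionFieldFullC (IsLocalRing.ResidueField A) M) := by
  obtain ⟨r, hr, hrM⟩ := exists_base h
  haveI : NeZero r := ⟨by rcases hr with rfl | rfl <;> norm_num⟩
  exact genusFF_eq_of_inputs r M hr hrM rationalOfGenusZero hPF (hC r) (hC M)
    (degreeModL r) (degreeModL M) (genusLe r) (genusLe M) ℓ hℓ hℓM A hA

end Fermat.Agent.GenusEq
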