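import Mathlib
import Fermat.Agent.Lib.GenusEq.Props
import Fermat.Agent.Lib.RR.Hurwitz.FibreDeg
import Fermat.Agent.Lib.RR.Hurwitz.Fibres
import Fermat.Agent.Lib.GoodRed.Small.PolyOrd

/-!
# GenusEq WP-C: poles through fibres  (helper90, for helper93)

`poleCountFibres : PoleCountFibres` (the `Prop` of `Lib/GenusEq/Props.lean`).

Setting: `B = k(x) ⊂ F`, `y ∈ B` with a pole at the pole of `x`.  Write `y = N(x) / D(x)` with
`N`, `D` coprime.  At a place `Q` (of `B` or of `F`):
* `ord_Q x < 0`        ⟹ `ord_Q y = (deg N - deg D) ord_Q x`,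
* `0 < ord_Q (x - c)`  ⟹ `ord_Q y = (mult_c N - mult_c D) ord_Q (x - c)`,
so the poles of `y` are the poles of `x` (as `deg D < deg N`) and the zeros of `x - c`, `c` a root
of `D`.  On `B = k(x)` every fibre of `x` has exactly one point.

Generic statements (usable elsewhere): `poleFibres_ord_of_pole`, `poleFibres_ord_of_zero`,
`poleFibres_ord_neg_iff`, `poleFibres_count`, `poleFibres_poleCount_eq_one`,
`poleFibres_zeroCount_eq_one`.
-/

set_option autoImplicit false

noncomputable section

open AlgebraicCurve IntermediateField Polynomial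

namespace Fermat.Agent.GenusEq

open Fermat.Agent.RR Fermat.Agent.RRHur

variable {k E : Type*} [Field k] [Field E] [Algebra k E]

/-- a transcendental element is not a constant. -/
theorem poleFibres_ne_algebraMap {z : E} (hz : Transcendental k z) (c : k) :
    z ≠ algebraMap k E c := by
  rintro rfl
  exact hz (isAlgebraic_algebraMap c)

/-- `w = N(z) / D(z)` is nonzero. -/
theorem poleFibres_ne_zero {z w : E} (hz : Transcendental k z) {N D : k[X]} (hN : N ≠ 0)
    (hw : Polynomial.aeval z D * w = Polynomial.aeval z N) : w ≠ 0 := by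
  rintro rfl
  rw [mul_zero] at hw
  exact aeval_ne_zero_of_transcendental hz hN hw.symm

/-- the order of `w = N(z) / D(z)` at a pole of `z`. -/
theorem poleFibres_ord_of_pole {z w : E} (hz : Transcendental k z) {N D : k[X]} (hN : N ≠ 0)
    (hD : D ≠ 0) (hw : Polynomial.aeval z D * w = Polynomial.aeval z N) (Q : Place k E)
    (hQ : Q.ord z < 0) :
    Q.ord w = ((N.natDegree : ℤ) - D.natDegree) * Q.ord z := by
  have hDz : Polynomial.aeval z D ≠ 0 := aeval_ne_zero_of_transcendental hz hD
  have hw0 : w ≠ 0 := poleFibres_ne_zero hz hN hw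
  have h1 := Q.ord_mul hDz hw0
  rw [hw, ord_aeval_of_pole hz Q hQ hN, ord_aeval_of_pole hz Q hQ hD] at h1
  linarith

/-- the order of `w = N(z) / D(z)` at a zero of `z - c`. -/
theorem poleFibres_ord_of_zero {z w : E} (hz : Transcendental k z) {N D : k[X]} (hN : N ≠ 0)
    (hD : D ≠ 0) (hw : Polynomial.aeval z D * w = Polynomial.aeval z N) (Q : Place k E) {c : k}
    (hQ : 0 < Q.ord (z - algebraMap k E c)) :
    Q.ord w = ((N.rootMultiplicity c : ℤ) - D.rootMultiplicity c) *
      Q.ord (z - algebraMap k E c) := by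
  have hDz : Polynomial.aeval z D ≠ 0 := aeval_ne_zero_of_transcendental hz hD
  have hw0 : w ≠ 0 := poleFibres_ne_zero hz hN hw
  have h1 := Q.ord_mul hDz hw0
  rw [hw, Fermat.Agent.GoodRedSmall.ord_aeval_eq Q hQ hN,
    Fermat.Agent.GoodRedSmall.ord_aeval_eq Q hQ hD] at h1
  linarith

/-- coprime polynomials have no common root. -/
theorem poleFibres_not_isRoot_of_isCoprime {N D : k[X]} (hcop : IsCoprime N D) {c : k}
    (hc : D.IsRoot c) : ¬ N.IsRoot c := by
  intro hNc
  obtain ⟨a, b, hab⟩ := hcop
  have h1 := congrArg (Polynomial.eval c) hab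
  rw [Polynomial.eval_add, Polynomial.eval_mul, Polynomial.eval_mul, hNc.eq_zero, hc.eq_zero,
    mul_zero, mul_zero, add_zero, Polynomial.eval_one] at h1
  exact zero_ne_one h1

/-- **the poles of `w = N(z)/D(z)`** (`N`, `D` coprime, `deg D < deg N`) are the poles of `z` and
the zeros of `z - c`, `c` a root of `D`. -/
theorem poleFibres_ord_neg_iff (hE : IsRRField k E) {z w : E} (hz : Transcendental k z)
    {N D : k[X]} (hcop : IsCoprime N D) (hN : N ≠ 0) (hD : D ≠ 0)
    (hdeg : D.natDegree < N.natDegree)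
    (hw : Polynomial.aeval z D * w = Polynomial.aeval z N) (Q : Place k E) :
    Q.ord w < 0 ↔
      Q.ord z < 0 ∨ ∃ c : k, D.IsRoot c ∧ 0 < Q.ord (z - algebraMap k E c) := by
  constructor
  · intro hQw
    rcases lt_or_ge (Q.ord z) 0 with hneg | hnn
    · exact Or.inl hneg
    · right
      obtain ⟨c, hc | hc⟩ := exists_const_sub hE Q hnn
      · exact absurd hc (poleFibres_ne_algebraMap hz c)
      · refine ⟨c, ?_, hc⟩
        by_contra hroot
        have hm : D.rootMultiplicity c = 0 := Polynomial.rootMultiplicity_eq_zero hroot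
        have h1 := poleFibres_ord_of_zero hz hN hD hw Q hc
        rw [hm] at h1
        have h2 : (0 : ℤ) ≤ (N.rootMultiplicity c : ℤ) := Int.natCast_nonneg _
        have h3 : 0 ≤ Q.ord w := by
          rw [h1]
          simp only [Nat.cast_zero, sub_zero]
          exact mul_nonneg h2 hc.le
        omega
  · rintro (hneg | ⟨c, hc, hQc⟩)
    · rw [poleFibres_ord_of_pole hz hN hD hw Q hneg]
      have h1 : (0 : ℤ) < (N.natDegree : ℤ) - D.natDegree := by
        have : (D.natDegree : ℤ) < N.natDegree := by exact_mod_cast hdeg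
        omega
      exact mul_neg_of_pos_of_neg h1 hneg
    · have hNc : ¬ N.IsRoot c := poleFibres_not_isRoot_of_isCoprime hcop hc
      have hmN : N.rootMultiplicity c = 0 := Polynomial.rootMultiplicity_eq_zero hNc
      have hmD : 0 < D.rootMultiplicity c := (Polynomial.rootMultiplicity_pos hD).mpr hc
      rw [poleFibres_ord_of_zero hz hN hD hw Q hQc, hmN]
      have h1 : ((0 : ℕ) : ℤ) - (D.rootMultiplicity c : ℤ) < 0 := by
        have : (0 : ℤ) < (D.rootMultiplicity c : ℤ) := by exact_mod_cast hmD
        simp only [Nat.cast_zero, zero_sub, Left.neg_neg_iff]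
        exact this
      exact mul_neg_of_neg_of_pos h1 hQc

/-- **counting the poles of `w = N(z)/D(z)`** through the fibres of `z`. -/
theorem poleFibres_count (hE : IsRRField k E) {z w : E} (hz : Transcendental k z)
    {N D : k[X]} (hcop : IsCoprime N D) (hN : N ≠ 0) (hD : D ≠ 0)
    (hdeg : D.natDegree < N.natDegree)
    (hw : Polynomial.aeval z D * w = Polynomial.aeval z N)
    (S : Finset k) (hS : ∀ c, c ∈ S ↔ D.IsRoot c) :
    poleCount k E w =
      poleCount k E z + ∑ c ∈ S, zeroCount k E (z - algebraMap k E c) := by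
  classical
  set P0 : Finset (Place k E) := (finite_poles hE z).toFinset with hP0def
  set Z : k → Finset (Place k E) :=
    fun c => (finite_zeros hE (z - algebraMap k E c)).toFinset with hZdef
  have hmemP0 : ∀ v, v ∈ P0 ↔ v.ord z < 0 := fun v => by
    rw [hP0def, Set.Finite.mem_toFinset, Set.mem_ofPred_eq]
  have hmemZ : ∀ c v, v ∈ Z c ↔ 0 < v.ord (z - algebraMap k E c) := fun c v => by
    rw [hZdef]
    simp only [Set.Finite.mem_toFinset, Set.mem_ofPred_eq]
  have hP0 : poleCount k E z = P0.card := Nat.subtype_card P0 hmemP0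
  have hZ : ∀ c, zeroCount k E (z - algebraMap k E c) = (Z c).card :=
    fun c => Nat.subtype_card (Z c) (hmemZ c)
  have hW : poleCount k E w = (P0 ∪ S.biUnion Z).card :=
    Nat.subtype_card _ fun v => by
      rw [Finset.mem_union, Finset.mem_biUnion, hmemP0,
        poleFibres_ord_neg_iff hE hz hcop hN hD hdeg hw v]
      simp only [hmemZ, hS]
  have hdisj1 : Disjoint P0 (S.biUnion Z) := by
    rw [Finset.disjoint_left]
    intro v hv1 hv2
    rw [hmemP0] at hv1
    rw [Finset.mem_biUnion] at hv2
    obtain ⟨c, -, hc⟩ := hv2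
    rw [hmemZ] at hc
    have := ord_nonneg_of_ord_sub_const_pos v hc
    omega
  have hdisj2 : (S : Set k).PairwiseDisjoint Z := by
    intro c _ c' _ hcc
    rw [Function.onFun, Finset.disjoint_left]
    intro v hv1 hv2
    rw [hmemZ] at hv1 hv2
    have := ord_sub_const_eq_zero v hcc hv1
    omega
  rw [hW, Finset.card_union_of_disjoint hdisj1, Finset.card_biUnion hdisj2, hP0]
  congr 1
  exact Finset.sum_congr rfl fun c _ => (hZ c).symm

/-! ### the rational function field `B = k(x)`: every fibre of `x` has one point -/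

section Rational

variable {B : Type*} [Field B] [Algebra k B]

theorem poleFibres_finiteDimensional_of_top {x : B} (htop : k⟮x⟯ = ⊤) :
    FiniteDimensional k⟮x⟯ B := by
  rw [htop]
  exact Module.finite_of_finrank_pos (by rw [IntermediateField.finrank_top]; exact one_pos)

theorem poleFibres_finrank_of_top {x : B} (htop : k⟮x⟯ = ⊤) :
    Module.finrank k⟮x⟯ B = 1 := by
  rw [htop]
  exact IntermediateField.finrank_top

/-- on `k(x)`, `x` is a coordinate: one pole, simple. -/
theorem poleFibres_exists_isCoord (hB : IsRRField k B) {x : B} (hx : Transcendental k x)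
    (htop : k⟮x⟯ = ⊤) : ∃ Q : Place k B, Fermat.Agent.GoodRedSmall.IsCoord x Q := by
  classical
  have := poleFibres_finiteDimensional_of_top htop
  have h1 : Divisor.degree (poleDiv hB x) = 1 := by
    rw [degree_poleDiv_eq_finrank hB hx, poleFibres_finrank_of_top htop]
    simp
  obtain ⟨Q, hQ⟩ := Fermat.Agent.GoodRedSmall.exists_eq_single_of_degree_eq_one hB
    (poleDiv_nonneg hB x) h1
  refine ⟨Q, ⟨?_, ?_⟩⟩
  · have h2 : poleDiv hB x Q = Finsupp.single Q (1 : ℤ) Q := by rw [hQ]
    rw [poleDiv_apply, Finsupp.single_apply, if_pos rfl] at h2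
    rcases max_cases (-(Q.ord x)) 0 with ⟨h3, _⟩ | ⟨h3, _⟩
    · omega
    · omega
  · intro v hv
    have h2 : poleDiv hB x v = Finsupp.single Q (1 : ℤ) v := by rw [hQ]
    rw [poleDiv_apply, Finsupp.single_apply, if_neg (Ne.symm hv)] at h2
    have h3 := le_max_left (-(v.ord x)) 0
    omega

/-- on `k(x)`, `x` has exactly one pole. -/
theorem poleFibres_poleCount_eq_one (hB : IsRRField k B) {x : B} (hx : Transcendental k x)
    (htop : k⟮x⟯ = ⊤) : poleCount k B x = 1 := by
  classical
  obtain ⟨Q, hQ⟩ := poleFibres_exists_isCoord hB hx htop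
  refine (Nat.subtype_card {Q} fun v => ?_).trans (Finset.card_singleton Q)
  rw [Finset.mem_singleton]
  constructor
  · rintro rfl
    rw [hQ.ord_pole]
    norm_num
  · intro hv
    by_contra hne
    have := hQ.ord_nonneg v hne
    omega

/-- on `k(x)`, `x - c` has exactly one zero. -/
theorem poleFibres_zeroCount_eq_one (hB : IsRRField k B) {x : B} (hx : Transcendental k x)
    (htop : k⟮x⟯ = ⊤) (c : k) : zeroCount k B (x - algebraMap k B c) = 1 := by
  classical
  obtain ⟨Q, hQ⟩ := poleFibres_exists_isCoord hB hx htop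
  obtain ⟨P, -, hP1, -⟩ := (hQ.sub_const c).exists_zero hB
  have hP : 0 < P.ord (x - algebraMap k B c) := by rw [hP1]; norm_num
  refine (Nat.subtype_card {P} fun v => ?_).trans (Finset.card_singleton P)
  rw [Finset.mem_singleton]
  constructor
  · rintro rfl
    exact hP
  · intro hv
    exact (hQ.ord_sub_eq_one hB hP).2 v hv

end Rational

/-- reduction of a fraction to lowest terms. -/
theorem poleFibres_exists_coprime {z w : E} (hz : Transcendental k z) (hw : w ∈ k⟮z⟯) :
    ∃ N D : k[X], D ≠ 0 ∧ IsCoprime N D ∧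
      Polynomial.aeval z D * w = Polynomial.aeval z N := by
  classical
  obtain ⟨N, D, hD, hND⟩ := exists_denominator hz (⟨w, hw⟩ : k⟮z⟯)
  have hg0 : EuclideanDomain.gcd N D ≠ 0 := by
    intro h0
    exact hD (EuclideanDomain.gcd_eq_zero_iff.mp h0).2
  have hab := EuclideanDomain.gcd_eq_gcd_ab N D
  obtain ⟨N', hN'⟩ := EuclideanDomain.gcd_dvd_left N D
  obtain ⟨D', hD'⟩ := EuclideanDomain.gcd_dvd_right N D
  have hD'0 : D' ≠ 0 := by
    rintro rfl
    rw [mul_zero] at hD'
    exact hD hD'
  have hcop : IsCoprime N' D' := by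
    refine ⟨EuclideanDomain.gcdA N D, EuclideanDomain.gcdB N D, ?_⟩
    apply mul_left_cancel₀ hg0
    calc EuclideanDomain.gcd N D *
          (EuclideanDomain.gcdA N D * N' + EuclideanDomain.gcdB N D * D')
        = (EuclideanDomain.gcd N D * N') * EuclideanDomain.gcdA N D +
            (EuclideanDomain.gcd N D * D') * EuclideanDomain.gcdB N D := by ring
      _ = N * EuclideanDomain.gcdA N D + D * EuclideanDomain.gcdB N D := by
          rw [← hN', ← hD']
      _ = EuclideanDomain.gcd N D := hab.symm
      _ = EuclideanDomain.gcd N D * 1 := (mul_one _).symm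
  refine ⟨N', D', hD'0, hcop, ?_⟩
  have hgz : Polynomial.aeval z (EuclideanDomain.gcd N D) ≠ 0 :=
    aeval_ne_zero_of_transcendental hz hg0
  apply mul_left_cancel₀ hgz
  rw [← mul_assoc, ← map_mul, ← hD', ← map_mul, ← hN']
  exact hND

/-- **WP-C, poles through fibres.** -/
theorem poleCountFibres : PoleCountFibres := by
  intro k B F _ _ _ _ _ _ hB hF ι x y hx htop hpole _
  classical
  have hy : y ∈ k⟮x⟯ := by
    rw [htop]
    exact IntermediateField.mem_top
  obtain ⟨N, D, hD, hcop, hND⟩ := poleFibres_exists_coprime hx hy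
  obtain ⟨Q, hQ⟩ := poleFibres_exists_isCoord hB hx htop
  have hQx : Q.ord x < 0 := by
    rw [hQ.ord_pole]
    norm_num
  have hQy := hpole Q hQx
  have hy0 : y ≠ 0 := by
    rintro rfl
    rw [Q.ord_zero] at hQy
    exact lt_irrefl _ hQy
  have hN : N ≠ 0 := by
    rintro rfl
    rw [map_zero] at hND
    rcases mul_eq_zero.mp hND with h | h
    · exact aeval_ne_zero_of_transcendental hx hD h
    · exact hy0 h
  have hdeg : D.natDegree < N.natDegree := by
    have h1 := poleFibres_ord_of_pole hx hN hD hND Q hQx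
    rw [hQ.ord_pole] at h1
    have h2 : (D.natDegree : ℤ) < N.natDegree := by
      rw [h1] at hQy
      linarith
    exact_mod_cast h2
  have hS : ∀ c, c ∈ D.roots.toFinset ↔ D.IsRoot c := fun c => by
    rw [Multiset.mem_toFinset, Polynomial.mem_roots hD]
  refine ⟨D.roots.toFinset, ?_, ?_⟩
  · rw [poleFibres_count hB hx hcop hN hD hdeg hND _ hS, poleFibres_poleCount_eq_one hB hx htop,
      Finset.sum_congr rfl fun c _ => poleFibres_zeroCount_eq_one hB hx htop c]
    simp only [Finset.sum_const, smul_eq_mul, mul_one]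
    exact add_comm _ _
  · have hιx : Transcendental k (ι x) := fun h =>
      hx ((isAlgebraic_algHom_iff ι ι.toRingHom.injective).mp h)
    have hιND : Polynomial.aeval (ι x) D * ι y = Polynomial.aeval (ι x) N := by
      rw [Polynomial.aeval_algHom_apply, Polynomial.aeval_algHom_apply, ← map_mul, hND]
    rw [poleFibres_count hF hιx hcop hN hD hdeg hιND _ hS]
    exact add_comm _ _

end Fermat.Agent.GenusEq
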