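import Mathlib
import Fermat.Agent.Lib.GenusEq.Final
import Fermat.Agent.Lib.GenusEq.PoleFibres

set_option autoImplicit false
set_option linter.style.haveILetI false
set_option linter.unusedSectionVars false
set_option synthInstance.maxHeartbeats 400000

/-!
# GenusEq (helper93): genus equality at the auxiliary levels, from the ONE remaining work package

`genusFF_eq_of_cusp`: for `4 ∣ M` or `9 ∣ M`, and every prime `ℓ ∤ M` (INCLUDING `ℓ = 2, 3`),
`genusFF ℚ̄ F_M = genusFF k F_{M,k}`, from `CuspCountModL` (WP-D) alone.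
-/

noncomputable section

open AlgebraicCurve IntermediateField ModularCurve

namespace Fermat.Agent.GenusEq

/-- **Genus equality at the auxiliary levels**, from the cusp counts mod `ℓ` at the levels
`r ∈ {4, 9}` and `M`. -/
theorem genusFF_eq_of_cusp (r M : ℕ) [NeZero r] [NeZero M] (hr : r = 4 ∨ r = 9) (hrM : r ∣ M)
    (hCr : CuspCountModL r) (hCM : CuspCountModL M)
    (ℓ : ℕ) (hℓ : ℓ.Prime) (hℓM : ¬ ℓ ∣ M)
    (A : ValuationSubring (AlgebraicClosure ℚ)) (hA : A.LiesOverPrime ℓ) :
    genusFF (AlgebraicClosure ℚ) ↥(modularFunctionFieldBar M) =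
      genusFF (IsLocalRing.ResidueField A)
        ↥(modularFunctionFieldFullC (IsLocalRing.ResidueField A) M) :=
  genusFF_eq_of_inputs r M hr hrM rationalOfGenusZero poleCountFibres hCr hCM
    (degreeModL r) (degreeModL M) (genusLe r) (genusLe M) ℓ hℓ hℓM A hA

end Fermat.Agent.GenusEq
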