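import Mathlib
import Fermat.Agent.Lib.GenusEq.FinalOne
import Fermat.Agent.Lib.GenusEq.CuspModL

set_option autoImplicit false
set_option linter.style.haveILetI false
set_option linter.unusedSectionVars false
set_option synthInstance.maxHeartbeats 400000

/-!
# GenusEq (helper93): GENUS EQUALITY at the auxiliary levels, UNCONDITIONAL

For every level `M` divisible by `4` or by `9`, every prime `ℓ ∤ M` (INCLUDING `ℓ = 2` and `ℓ = 3`)
and every valuation ring `A` of `ℚ̄` over `ℓ`, with residue field `k`: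

  `genusFF ℚ̄ (modularFunctionFieldBar M) = genusFF k (modularFunctionFieldFullC k M)`.

Pieces: WP-A helper20, WP-B helper58, WP-C helper90, WP-D helper42 + helper37 (GoodRed discriminant
chain, chart `1/j`), WP-E helper93; degrees helper66, Deuring inequality helper80 + helper5,
Hurwitz bound helper40 et al., genus formula helper90 (from S24).
-/

noncomputable section

open AlgebraicCurve IntermediateField ModularCurve

namespace Fermat.Agent.GenusEq

/-- **Genus equality** at a level `M` divisible by `r ∈ {4, 9}`. -/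
theorem genusFF_eq_base (r M : ℕ) [NeZero r] [NeZero M] (hr : r = 4 ∨ r = 9) (hrM : r ∣ M)
    (ℓ : ℕ) (hℓ : ℓ.Prime) (hℓM : ¬ ℓ ∣ M)
    (A : ValuationSubring (AlgebraicClosure ℚ)) (hA : A.LiesOverPrime ℓ) :
    genusFF (AlgebraicClosure ℚ) ↥(modularFunctionFieldBar M) =
      genusFF (IsLocalRing.ResidueField A)
        ↥(modularFunctionFieldFullC (IsLocalRing.ResidueField A) M) :=
  genusFF_eq_of_cusp r M hr hrM (cuspCountModL r) (cuspCountModL M) ℓ hℓ hℓM A hA

/-- **Genus equality** at a level `M` divisible by `4` or by `9`, for every prime `ℓ ∤ M`. -/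
theorem genusFF_eq (M : ℕ) [NeZero M] (h : 4 ∣ M ∨ 9 ∣ M)
    (ℓ : ℕ) (hℓ : ℓ.Prime) (hℓM : ¬ ℓ ∣ M)
    (A : ValuationSubring (AlgebraicClosure ℚ)) (hA : A.LiesOverPrime ℓ) :
    genusFF (AlgebraicClosure ℚ) ↥(modularFunctionFieldBar M) =
      genusFF (IsLocalRing.ResidueField A)
        ↥(modularFunctionFieldFullC (IsLocalRing.ResidueField A) M) := by
  obtain ⟨r, hr, hrM⟩ := exists_base h
  haveI : NeZero r := ⟨by rcases hr with rfl | rfl <;> norm_num⟩
  exact genusFF_eq_base r M hr hrM ℓ hℓ hℓM A hA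

/-- the lower bound in the shape of `Props.lean`. -/
theorem genusGe (M : ℕ) [NeZero M] (h : 4 ∣ M ∨ 9 ∣ M) : GenusGe M :=
  fun ℓ hℓ hℓM A hA => (genusFF_eq M h ℓ hℓ hℓM A hA).le

end Fermat.Agent.GenusEq
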