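import Mathlib
import Fermat.Agent.Lib.GenusEq.Props
import Fermat.Agent.Lib.GoodRed.ModularBranch
import Fermat.Agent.S24.Comb

set_option autoImplicit false

/-!
# GenusEq WP-A: the characteristic-`0` inputs

* `cuspCountBar M : CuspCountBar M`: the places of `F_M` over `j = ∞` are counted by the cusps
  of `Γ₀(M)`;
* `unramBar M : UnramBar M`: `[F_M : ℚ̄(j)] = ψ(M)` and every fibre of `j` over
  `c ∉ {0, 1728}` has `ψ(M)` places.

Both are repackagings of `GoodRedBranch.fibre_package` (helper19, from the S24 Galois datum) with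
the coset combinatorics of S20/S24 (`index_Gamma0`, `orbCount_T`).
-/

noncomputable section

open AlgebraicCurve IntermediateField ModularCurve

namespace Fermat.Agent.GenusEq

/-- (A1) the poles of `j` on `F_M` are counted by the cusps of `Γ₀(M)`. -/
theorem cuspCountBar (M : ℕ) [NeZero M] : CuspCountBar M := by
  unfold CuspCountBar poleCount
  rw [← Fermat.Agent.S24.orbCount_T M]
  exact Fermat.Agent.GoodRedBranch.card_poles_jBar M

/-- (A2) `[F_M : ℚ̄(j)] = ψ(M)`, and `j` is unramified outside `0, 1728, ∞`. -/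
theorem unramBar (M : ℕ) [NeZero M] : UnramBar M := by
  unfold UnramBar zeroCount
  refine ⟨?_, fun c hc0 hc => ?_⟩
  · rw [← Fermat.Agent.S24.index_Gamma0 M]
    exact Fermat.Agent.GoodRedBranch.finrank_jBar M
  · rw [← Fermat.Agent.S24.index_Gamma0 M]
    exact (Fermat.Agent.GoodRedBranch.fibre_package M).2.1 c hc0 hc

/-- every place over `c ∉ {0, 1728}` is unramified (`ord_v (j - c) = 1`); re-export. -/
theorem ord_jBar_sub_eq_one_of_pos (M : ℕ) [NeZero M] {c : AlgebraicClosure ℚ}
    (hc0 : c ≠ 0) (hc : c ≠ 1728)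
    (v : Place (AlgebraicClosure ℚ) ↥(modularFunctionFieldBar M))
    (hv : 0 < v.ord (Fermat.Agent.S24.jBar M - algebraMap (AlgebraicClosure ℚ) _ c)) :
    v.ord (Fermat.Agent.S24.jBar M - algebraMap (AlgebraicClosure ℚ) _ c) = 1 :=
  Fermat.Agent.GoodRedBranch.ord_jBar_sub_eq_one M hc0 hc v hv

end Fermat.Agent.GenusEq
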